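/-
T1B / brick H (design = report 993, helper13), slice H-RES (helper63), file 1: LOCAL RESIDUES OF
LOGARITHMIC DIFFERENTIALS, on an arbitrary function field `F / K` (`K` algebraically closed of
characteristic zero, `hx : IsGen K x`), for the residues `RR.LocalResMain.residue hx`.

* `dlogΩ u = u⁻¹ • D u`, `dlogΩ_mul`, `dlogΩ_zpow`;
* `residue_smul_dlogΩ` : `res_z (f • dlog u) = ord_z(u) * f(z)` for `f` regular at `z`
  (`f(z) = ES.RED.PlaceValue13.valueHom hx z ⟨f, _⟩`);
* `residue_smul_dlogΩ_eq_neg_finsum` : if `f` is regular at every place `≠ v∞` then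
  `res_{v∞} (f • dlog u) = - ∑ᶠ_{z ≠ v∞} ord_z(u) * f(z)` (residue theorem);
* `residue_eq_zero_of_regular_off` : if `ω` is regular at every place `≠ v∞` then `res_{v∞} ω = 0`.
-/
import Mathlib
import Fermat.Agent.RR.ResidueGlob
import Fermat.Agent.ES.RED.PlaceValue13

set_option autoImplicit false
set_option linter.unusedSectionVars false

noncomputable section

namespace Fermat.Agent.T1B.HRes63

open AlgebraicCurve KaehlerDifferential
open Fermat.Agent.RR Fermat.Agent.RR.LocalRes Fermat.Agent.RR.LocalResMain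
  Fermat.Agent.RR.LocalPrep
open Fermat.Agent.X0.FF Fermat.Agent.ES.RED.PlaceValue13

variable {K F : Type*} [Field K] [Field F] [Algebra K F]

/-! ### Logarithmic differentials -/

/-- The logarithmic differential `du / u`. -/
def dlogΩ (u : F) : Ω[F⁄K] := u⁻¹ • D K F u

theorem dlogΩ_def (u : F) : dlogΩ (K := K) u = u⁻¹ • D K F u := rfl

theorem dlogΩ_mul {a b : F} (ha : a ≠ 0) (hb : b ≠ 0) :
    dlogΩ (K := K) (a * b) = dlogΩ a + dlogΩ b := by
  simp only [dlogΩ_def, Derivation.leibniz, smul_add, smul_smul]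
  rw [add_comm]
  congr 1
  · congr 1
    field_simp
  · congr 1
    field_simp

theorem dlogΩ_zpow {a : F} (ha : a ≠ 0) (n : ℤ) :
    dlogΩ (K := K) (a ^ n) = n • dlogΩ a := by
  simp only [dlogΩ_def, Derivation.leibniz_zpow]
  rw [smul_comm ((a ^ n)⁻¹) n, smul_smul]
  congr 2
  rw [← zpow_neg, ← zpow_add₀ ha, show -n + (n - 1) = -1 by ring, zpow_neg_one]

/-! ### The local formula -/

section Local

variable [IsAlgClosed K] [CharZero K] {x : F} (hx : IsGen K x)

include hx in
/-- `res_z (a • D g) = 0` for `a, g` regular at `z`. -/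
theorem residue_smul_D_eq_zero (z : Place K F) {a g : F} (ha : a ∈ z.toValuationSubring)
    (hg : g ∈ z.toValuationSubring) : residue hx z (a • D K F g) = 0 :=
  resΩ_smul_D_eq_zero z (hres_of_isGen hx z) ha hg

include hx in
/-- `res_z (f • dlog w) = 0` for `f` regular and `w` a unit at `z`. -/
theorem residue_smul_dlogΩ_unit (z : Place K F) {f w : F} (hf : f ∈ z.toValuationSubring)
    (hw : z.ord w = 0) : residue hx z (f • dlogΩ (K := K) w) = 0 := by
  rw [dlogΩ_def, smul_smul]
  apply residue_smul_D_eq_zero hx z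
  · apply z.toValuationSubring.mul_mem _ _ hf
    apply ffp_mem_of_ord_nonneg
    rw [z.ord_inv, hw, neg_zero]
  · exact ffp_mem_of_ord_nonneg z hw.ge

include hx in
/-- `res_z (f • dt/t) = f(z)` for a uniformizer `t` and `f` regular at `z`. -/
theorem residue_smul_dlogΩ_uniformizer (z : Place K F) {f t : F}
    (hf : f ∈ z.toValuationSubring) (ht : z.ord t = 1) :
    residue hx z (f • dlogΩ (K := K) t) = valueHom hx z ⟨f, hf⟩ := by
  have ht0 : t ≠ 0 := by rintro rfl; simp at ht
  have htmem : t ∈ z.toValuationSubring := ffp_mem_of_ord_nonneg z (by rw [ht]; exact zero_le_one)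
  set c : K := valueHom hx z ⟨f, hf⟩ with hc
  have hval := (valueHom_eq_iff hx z ⟨f, hf⟩ c).mp rfl
  set a' : F := (f - algebraMap K F c) * t⁻¹ with ha'
  have ha'mem : a' ∈ z.toValuationSubring := by
    rcases hval with h | h
    · have h' : f = algebraMap K F c := h
      rw [ha', h', sub_self, zero_mul]; exact zero_mem _
    · have h' : 0 < z.ord (f - algebraMap K F c) := h
      have hne : f - algebraMap K F c ≠ 0 := by
        intro h0; rw [h0, z.ord_zero] at h'; exact lt_irrefl _ h'
      apply ffp_mem_of_ord_nonneg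
      rw [ha', z.ord_mul hne (inv_ne_zero ht0), z.ord_inv, ht]
      omega
  have hdecomp : f • dlogΩ (K := K) t = c • (t⁻¹ • D K F t) + a' • D K F t := by
    rw [dlogΩ_def, smul_smul, ha', ← algebraMap_smul F c (t⁻¹ • D K F t), smul_smul, ← add_smul]
    congr 1
    ring
  rw [hdecomp, map_add, map_smul, residue_smul_D_eq_zero hx z ha'mem htmem, add_zero]
  have h1 : residue hx z (t⁻¹ • D K F t) = 1 :=
    resΩ_inv_smul_D_uniformizer z (hres_of_isGen hx z) ht
  rw [h1, smul_eq_mul, mul_one]

include hx in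
/-- **`res_z (f • du/u) = ord_z(u) · f(z)`** for `f` regular at `z`. -/
theorem residue_smul_dlogΩ (z : Place K F) {f u : F} (hf : f ∈ z.toValuationSubring)
    (hu : u ≠ 0) :
    residue hx z (f • dlogΩ (K := K) u) = (z.ord u : K) * valueHom hx z ⟨f, hf⟩ := by
  set t : F := ((ffu z : z.toValuationSubring) : F) with ht_def
  have ht : z.ord t = 1 := ffu_ord z
  have ht0 : t ≠ 0 := ffu_ne_zero z
  set n : ℤ := z.ord u with hn
  set w : F := u * t ^ (-n) with hw_def
  have htn0 : t ^ (-n) ≠ 0 := zpow_ne_zero _ ht0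
  have hw0 : w ≠ 0 := mul_ne_zero hu htn0
  have hword : z.ord w = 0 := by
    rw [hw_def, z.ord_mul hu htn0, z.ord_zpow, ht, ← hn]; ring
  have hu_eq : u = t ^ n * w := by
    rw [hw_def, mul_comm u, ← mul_assoc, ← zpow_add₀ ht0, add_neg_cancel, zpow_zero, one_mul]
  have hdl : dlogΩ (K := K) u = n • dlogΩ t + dlogΩ w := by
    rw [hu_eq, dlogΩ_mul (zpow_ne_zero _ ht0) hw0, dlogΩ_zpow ht0]
  rw [hdl, smul_add, map_add, residue_smul_dlogΩ_unit hx z hf hword, add_zero,
    smul_comm f n, map_zsmul, residue_smul_dlogΩ_uniformizer hx z hf ht, zsmul_eq_mul]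

end Local

/-! ### The global formulas -/

section Global

variable [IsAlgClosed K] [CharZero K] {x : F} (hx : IsGen K x)

include hx in
/-- If `ω` is regular at every place `≠ vinf`, then `res_{vinf} ω = 0`. -/
theorem residue_eq_zero_of_regular_off (vinf : Place K F) (ω : Ω[F⁄K])
    (h : ∀ z : Place K F, z ≠ vinf → 0 ≤ z.ordDifferential ω) : residue hx vinf ω = 0 := by
  have hsum := ResidueGlob.finsum_residue_eq_zero hx ω
  have hzero : ∀ z : Place K F, z ≠ vinf → residue hx z ω = 0 := fun z hz =>
    residue_eq_zero hx z ω (h z hz)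
  rw [finsum_eq_single (fun z => residue hx z ω) vinf hzero] at hsum
  exact hsum

open Classical in
include hx in
/-- **Residue theorem for `f • du/u`**, `f` regular off `vinf`:
`res_{vinf} (f du/u) = - ∑_{z ≠ vinf} ord_z(u) f(z)`. -/
theorem residue_smul_dlogΩ_eq_neg_finsum (vinf : Place K F) {f u : F}
    (hf : ∀ z : Place K F, z ≠ vinf → f ∈ z.toValuationSubring) (hu : u ≠ 0) :
    residue hx vinf (f • dlogΩ (K := K) u) =
      - ∑ᶠ z : Place K F, (if h : z = vinf then (0 : K)
          else (z.ord u : K) * valueHom hx z ⟨f, hf z h⟩) := by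
  have hsum := ResidueGlob.finsum_residue_eq_zero hx (f • dlogΩ (K := K) u)
  set g : Place K F → K := fun z => if h : z = vinf then (0 : K)
          else (z.ord u : K) * valueHom hx z ⟨f, hf z h⟩ with hg
  have hres : ∀ z : Place K F, residue hx z (f • dlogΩ (K := K) u) =
      (if z = vinf then residue hx vinf (f • dlogΩ (K := K) u) else 0) + g z := by
    intro z
    by_cases hz : z = vinf
    · subst hz
      simp [hg]
    · rw [if_neg hz, zero_add, hg]
      simp only [dif_neg hz]
      exact residue_smul_dlogΩ hx z (hf z hz) hu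
  have hfin_u : {z : Place K F | z.ord u ≠ 0}.Finite :=
    Fermat.Agent.X0.FF.ffq_finite_support_ord (Fermat.Agent.X0.FFGenus.ff1Data hx) hu
  have hfin_g : (Function.support g).Finite := by
    refine hfin_u.subset fun z hz => ?_
    rw [Function.mem_support, hg] at hz
    by_cases hzv : z = vinf
    · simp [hzv] at hz
    · simp only [dif_neg hzv] at hz
      intro h0
      apply hz
      rw [h0, Int.cast_zero, zero_mul]
  have hfin_1 : (Function.support fun z : Place K F =>
      if z = vinf then residue hx vinf (f • dlogΩ (K := K) u) else 0).Finite := by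
    refine (Set.finite_singleton vinf).subset fun z hz => ?_
    rw [Function.mem_support] at hz
    by_contra hne
    exact hz (if_neg hne)
  rw [finsum_congr hres, finsum_add_distrib hfin_1 hfin_g, finsum_eq_single _ vinf
    (fun z hz => if_neg hz), if_pos rfl] at hsum
  exact eq_neg_of_add_eq_zero_left hsum

end Global

end Fermat.Agent.T1B.HRes63
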