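/-
T1B / brick H (design = report 993, helper13), slice H-RES (helper63), file 2: THE RESIDUE AT THE
CUSP `∞` OF `FF N` IS THE CONSTANT COEFFICIENT OF THE `q`-EXPANSION.

`F = FF N ⊆ ℚbar((q))`, `v∞ = MW.NCA61.InfPlace.inftyPlace N` (the `q`-expansion place),
`res = RR.LocalResMain.residue (HasCanDivInst.isGen N)`.

* `thetaDer N : Derivation ℚbar (FF N) ℚbar((q))`, `g ↦ θ g = q dg/dq`;
* `qExpDiff N : Ω[FF N⁄ℚbar] →ₗ[FF N] ℚbar((q))`, `f • D g ↦ f * θ g` ("`ω / (dq/q)`");
* `residue_infty_eq_coeff` : `res_∞ ω = (qExpDiff N ω).coeff 0`;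
* `residue_infty_smul_D`   : `res_∞ (f • D g) = (f * θ g).coeff 0`;
* `residue_infty_smul_dlogΩ` : `res_∞ (f • du/u) = (f * dlog u).coeff 0` (`dlog = Hecke7.dlog`).
-/
import Mathlib
import Fermat.Agent.T1B.HRes63.LogRes
import Fermat.Agent.MW.NCA61.InfPlace
import Fermat.Agent.T1B.Hecke7.DlogAlg

set_option autoImplicit false
set_option linter.unusedSectionVars false
set_option synthInstance.maxHeartbeats 400000

noncomputable section

namespace Fermat.Agent.T1B.HRes63

open AlgebraicCurve KaehlerDifferential ModularCurve HahnSeries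
open Fermat.Agent.RR Fermat.Agent.RR.LocalRes Fermat.Agent.RR.LocalResMain
  Fermat.Agent.RR.LocalPrep Fermat.Agent.RR.AbsResidue
open Fermat.Agent.X0 Fermat.Agent.X0.FF
open Fermat.Agent.MW.NCA61.InfPlace
open Fermat.Agent.IG.PR.Theta20 Fermat.Agent.T1B.Hecke7

/-! ### Laurent series lemmas -/

section Laurent

variable {k : Type*} [Field k]

/-- `θ` does not lower the order. -/
theorem order_le_order_theta {g : LaurentSeries k} (h : theta g ≠ 0) :
    g.order ≤ (theta g).order := by
  have hc : (theta g).coeff (theta g).order ≠ 0 := fun h0 =>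
    h (HahnSeries.coeff_order_eq_zero.mp h0)
  rw [theta_coeff] at hc
  exact HahnSeries.order_le_of_coeff_ne_zero (right_ne_zero_of_mul hc)

/-- The constant coefficient of a product of positive total order vanishes. -/
theorem coeff_zero_mul_eq_zero {a b : LaurentSeries k} (ha : a = 0 ∨ 0 ≤ a.order)
    (hb : b = 0 ∨ 0 < b.order) : (a * b).coeff 0 = 0 := by
  rcases ha with rfl | ha
  · simp
  rcases hb with rfl | hb
  · simp
  by_cases hab : a * b = 0
  · rw [hab]; rfl
  apply HahnSeries.coeff_eq_zero_of_lt_order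
  have ha0 : a ≠ 0 := left_ne_zero_of_mul hab
  have hb0 : b ≠ 0 := right_ne_zero_of_mul hab
  rw [HahnSeries.order_mul ha0 hb0]
  omega

/-- `(θ h)_0 = 0`. -/
theorem coeff_zero_theta (h : LaurentSeries k) : (theta h).coeff 0 = 0 := by
  rw [theta_coeff]; simp

/-- The constant coefficient of `g⁻¹ θ g` is the order of `g`. -/
theorem coeff_zero_inv_mul_theta {g : LaurentSeries k} (hg : g ≠ 0) :
    (g⁻¹ * theta g).coeff 0 = (g.order : k) := by
  set n : ℤ := g.order with hn
  set r : LaurentSeries k := theta g - (n : k) • g with hr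
  have hrcoeff : ∀ m : ℤ, r.coeff m = ((m : k) - (n : k)) * g.coeff m := by
    intro m
    rw [hr, HahnSeries.coeff_sub, theta_coeff, HahnSeries.coeff_smul, smul_eq_mul]
    ring
  have hrord : r = 0 ∨ 0 < (g⁻¹ * r).order ∨ g⁻¹ * r = 0 := by
    by_cases hr0 : r = 0
    · exact Or.inl hr0
    right; left
    have hginv : g⁻¹ ≠ 0 := inv_ne_zero hg
    rw [HahnSeries.order_mul hginv hr0]
    have h1 : (g⁻¹).order = -n := by
      have := HahnSeries.order_mul hginv hg
      rw [inv_mul_cancel₀ hg, HahnSeries.order_one] at this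
      omega
    have h2 : n < r.order := by
      have hc : r.coeff r.order ≠ 0 := fun h0 => hr0 (HahnSeries.coeff_order_eq_zero.mp h0)
      rw [hrcoeff] at hc
      have hgc : g.coeff r.order ≠ 0 := right_ne_zero_of_mul hc
      have hle : n ≤ r.order := HahnSeries.order_le_of_coeff_ne_zero hgc
      rcases lt_or_eq_of_le hle with h | h
      · exact h
      · exfalso
        apply left_ne_zero_of_mul hc
        rw [← h, sub_self]
    omega
  have hdecomp : g⁻¹ * theta g = HahnSeries.C (n : k) + g⁻¹ * r := by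
    rw [hr, mul_sub, ← HahnSeries.C_mul_eq_smul, ← mul_assoc, mul_comm g⁻¹ (HahnSeries.C _),
      mul_assoc, inv_mul_cancel₀ hg, mul_one]
    ring
  rw [hdecomp, HahnSeries.coeff_add]
  have h0 : (g⁻¹ * r).coeff 0 = 0 := by
    rcases hrord with h | h | h
    · rw [h, mul_zero]; rfl
    · exact HahnSeries.coeff_eq_zero_of_lt_order h
    · rw [h]; rfl
  rw [h0, add_zero]
  show (HahnSeries.single 0 (n : k)).coeff 0 = _
  rw [HahnSeries.coeff_single_same]

end Laurent

/-! ### The derivation `θ` on `FF N` -/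

variable (N : ℕ) [NeZero N]

/-- `c • x = C c * x` in `ℚbar((q))` for the algebra structure used by `FF N`. -/
theorem kbar_smul_laurent (c : Kbar) (x : LaurentSeries Kbar) :
    c • x = HahnSeries.C c * x := by
  rw [HahnSeries.C_mul_eq_smul]

/-- The coercion `FF N → ℚbar((q))` and scalars. -/
theorem coe_smul_FF (a : Kbar) (x : FF N) :
    ((a • x : FF N) : LaurentSeries Kbar) = HahnSeries.C a * (x : LaurentSeries Kbar) := by
  rw [Algebra.smul_def]
  show (algebraMap Kbar (LaurentSeries Kbar) a) * (x : LaurentSeries Kbar) = _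
  rw [algebraMap_laurentSeries_eq_single]
  rfl

/-- The tower `ℚbar → FF N → ℚbar((q))` for the DEFAULT `ℚbar`-module structure of `ℚbar((q))`
(`HahnSeries.instModule`; the Prelude's intermediate field lives over `HahnSeries.powerSeriesAlgebra`,
which is only propositionally the same, so instance search does not find this). -/
theorem isScalarTower_FF : IsScalarTower Kbar (FF N) (LaurentSeries Kbar) :=
  ⟨fun c a x => by
    rw [IntermediateField.smul_def, IntermediateField.smul_def, coe_smul_FF, smul_eq_mul,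
      smul_eq_mul, mul_assoc, HahnSeries.C_mul_eq_smul]⟩

attribute [local instance] isScalarTower_FF

/-- `θ` as a `ℚbar`-derivation `FF N → ℚbar((q))`. -/
def thetaDer : Derivation Kbar (FF N) (LaurentSeries Kbar) where
  toFun g := theta ((g : FF N) : LaurentSeries Kbar)
  map_add' a b := by
    show theta (((a + b : FF N)) : LaurentSeries Kbar) = _
    rw [AddMemClass.coe_add, map_add]
  map_smul' c a := by
    show theta (((c • a : FF N)) : LaurentSeries Kbar) = c • theta (a : LaurentSeries Kbar)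
    rw [coe_smul_FF, theta_mul, theta_C, zero_mul, zero_add, HahnSeries.C_mul_eq_smul]
  map_one_eq_zero' := by
    show theta ((1 : FF N) : LaurentSeries Kbar) = 0
    rw [OneMemClass.coe_one, theta_one]
  leibniz' a b := by
    show theta (((a * b : FF N)) : LaurentSeries Kbar) =
      a • theta (b : LaurentSeries Kbar) + b • theta (a : LaurentSeries Kbar)
    rw [MulMemClass.coe_mul, theta_mul, IntermediateField.smul_def, IntermediateField.smul_def,
      smul_eq_mul, smul_eq_mul]
    ring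

@[simp]
theorem thetaDer_apply (g : FF N) : thetaDer N g = theta (g : LaurentSeries Kbar) := rfl

/-- The `q`-expansion of a differential, `ω ↦ ω / (dq/q)`: `f • D g ↦ f * θ g`. -/
def qExpDiff : Ω[FF N⁄Kbar] →ₗ[FF N] LaurentSeries Kbar :=
  (thetaDer N).liftKaehlerDifferential

@[simp]
theorem qExpDiff_D (g : FF N) : qExpDiff N (D Kbar (FF N) g) = theta (g : LaurentSeries Kbar) := by
  rw [qExpDiff, Derivation.liftKaehlerDifferential_comp_D]
  rfl

theorem qExpDiff_smul_D (f g : FF N) :
    qExpDiff N (f • D Kbar (FF N) g) = (f : LaurentSeries Kbar) * theta (g : LaurentSeries Kbar) := by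
  rw [map_smul, qExpDiff_D, IntermediateField.smul_def, smul_eq_mul]

theorem qExpDiff_dlogΩ {u : FF N} :
    qExpDiff N (dlogΩ (K := Kbar) u) = dlog (u : LaurentSeries Kbar) := by
  rw [dlogΩ_def, qExpDiff_smul_D, dlog_def, mul_comm]
  congr 1

/-! ### The two linear forms -/

/-- `a ↦ res_∞ (a • ω)`. -/
def resForm (ω : Ω[FF N⁄Kbar]) : FF N →ₗ[Kbar] Kbar where
  toFun a := residue (HasCanDivInst.isGen N) (inftyPlace N) (a • ω)
  map_add' a b := by rw [add_smul, map_add]
  map_smul' c a := by rw [smul_assoc, map_smul]; rfl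

/-- `a ↦ (a * qExpDiff ω)_0`. -/
def coeffForm (ω : Ω[FF N⁄Kbar]) : FF N →ₗ[Kbar] Kbar where
  toFun a := (qExpDiff N (a • ω)).coeff 0
  map_add' a b := by rw [add_smul, map_add, HahnSeries.coeff_add]
  map_smul' c a := by
    rw [smul_assoc, LinearMap.map_smul_of_tower, HahnSeries.coeff_smul, RingHom.id_apply]

theorem resForm_apply (ω : Ω[FF N⁄Kbar]) (a : FF N) :
    resForm N ω a = residue (HasCanDivInst.isGen N) (inftyPlace N) (a • ω) := rfl

theorem coeffForm_apply (ω : Ω[FF N⁄Kbar]) (a : FF N) :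
    coeffForm N ω a = (qExpDiff N (a • ω)).coeff 0 := rfl

/-! ### The uniformizer `t = 1/j` at `∞` -/

/-- `t = 1/j`, a uniformizer at `∞`. -/
def tInf : FF N := (jF N)⁻¹

theorem tInf_ne_zero : tInf N ≠ 0 := inv_ne_zero (jF_ne_zero N)

theorem ord_tInf : (inftyPlace N).ord (tInf N) = 1 := by
  rw [tInf, Place.ord_inv, ord_inftyPlace_jF]; norm_num

theorem tInf_mem : tInf N ∈ (inftyPlace N).toValuationSubring :=
  ffp_mem_of_ord_nonneg _ (by rw [ord_tInf]; exact zero_le_one)

theorem order_tInf : ((tInf N : FF N) : LaurentSeries Kbar).order = 1 := by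
  rw [← inftyPlace_ord N (tInf_ne_zero N), ord_tInf]

theorem coe_tInf_ne_zero : ((tInf N : FF N) : LaurentSeries Kbar) ≠ 0 := fun h =>
  tInf_ne_zero N (Subtype.ext h)

/-- `D t` spans the differentials. -/
theorem span_D_tInf : Submodule.span (FF N) {D Kbar (FF N) (tInf N)} = ⊤ := by
  rw [eq_top_iff, ← span_D_eq_top (HasCanDivInst.isGen N), Submodule.span_le,
    Set.singleton_subset_iff]
  have hj : jF N = (tInf N)⁻¹ := by rw [tInf, inv_inv]
  rw [hj, Derivation.leibniz_inv]
  exact Submodule.smul_mem _ _ (Submodule.subset_span rfl)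

/-! ### The three cases -/

/-- Regular part. -/
theorem forms_regular {a : FF N} (ha : a ∈ (inftyPlace N).toValuationSubring) :
    resForm N (D Kbar (FF N) (tInf N)) a = 0 ∧ coeffForm N (D Kbar (FF N) (tInf N)) a = 0 := by
  refine ⟨residue_smul_D_eq_zero (HasCanDivInst.isGen N) _ ha (tInf_mem N), ?_⟩
  rw [coeffForm_apply, qExpDiff_smul_D]
  apply coeff_zero_mul_eq_zero
  · rcases eq_or_ne a 0 with rfl | ha0
    · left; rfl
    · right; exact (mem_inftyPlace_iff N ha0).mp ha
  · by_cases h0 : theta ((tInf N : FF N) : LaurentSeries Kbar) = 0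
    · left; exact h0
    · right
      have := order_le_order_theta h0
      rw [order_tInf] at this
      omega

/-- Simple pole. -/
theorem forms_simple :
    resForm N (D Kbar (FF N) (tInf N)) (tInf N)⁻¹ = 1 ∧
      coeffForm N (D Kbar (FF N) (tInf N)) (tInf N)⁻¹ = 1 := by
  refine ⟨resΩ_inv_smul_D_uniformizer _ (hres_of_isGen (HasCanDivInst.isGen N) _) (ord_tInf N), ?_⟩
  rw [coeffForm_apply, qExpDiff_smul_D]
  have hcoe : (((tInf N)⁻¹ : FF N) : LaurentSeries Kbar) =
      ((tInf N : FF N) : LaurentSeries Kbar)⁻¹ := rfl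
  rw [hcoe, coeff_zero_inv_mul_theta (coe_tInf_ne_zero N), order_tInf, Int.cast_one]

/-- For a derivation `𝒟` into a `ℚbar`-module, `t^(-(i+2)) • 𝒟 t` is a multiple of `𝒟 (t^(-(i+1)))`. -/
theorem zpow_smul_der {M : Type*} [AddCommGroup M] [Module Kbar M] [Module (FF N) M]
    [IsScalarTower Kbar (FF N) M] (𝒟 : Derivation Kbar (FF N) M) (t : FF N) (i : ℕ) :
    t ^ (-((i + 1 : ℕ) + 1 : ℤ)) • 𝒟 t =
      (((-((i + 1 : ℕ) : ℤ) : ℤ) : Kbar))⁻¹ • 𝒟 (t ^ (-((i + 1 : ℕ) : ℤ))) := by
  have hne : (((-((i + 1 : ℕ) : ℤ) : ℤ) : Kbar)) ≠ 0 := by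
    rw [Int.cast_ne_zero]
    push_cast
    omega
  have hexp : (-((i + 1 : ℕ) : ℤ) - 1) = -((i + 1 : ℕ) + 1 : ℤ) := by ring
  rw [Derivation.leibniz_zpow, hexp, ← Int.cast_smul_eq_zsmul Kbar, smul_smul, inv_mul_cancel₀ hne,
    one_smul]

/-- Higher poles. -/
theorem forms_higher (i : ℕ) :
    resForm N (D Kbar (FF N) (tInf N)) ((tInf N) ^ (-((i + 1 : ℕ) + 1 : ℤ))) = 0 ∧
      coeffForm N (D Kbar (FF N) (tInf N)) ((tInf N) ^ (-((i + 1 : ℕ) + 1 : ℤ))) = 0 := by
  constructor
  · rw [resForm_apply, zpow_smul_der N (D Kbar (FF N)) (tInf N) i, map_smul]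
    have h0 : residue (HasCanDivInst.isGen N) (inftyPlace N)
        (D Kbar (FF N) ((tInf N) ^ (-((i + 1 : ℕ) : ℤ)))) = 0 := by
      show resΩ _ (hres_of_isGen (HasCanDivInst.isGen N) _) _ = 0
      rw [resΩ_D, mulOp_one]
      exact res_one_left (inE_mulOp _ (hres_of_isGen (HasCanDivInst.isGen N) _) _)
    rw [h0, smul_zero]
  · rw [coeffForm_apply, zpow_smul_der N (D Kbar (FF N)) (tInf N) i,
      LinearMap.map_smul_of_tower, qExpDiff_D, kbar_smul_laurent, HahnSeries.C_mul_eq_smul,
      HahnSeries.coeff_smul, coeff_zero_theta, smul_zero]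

/-! ### The comparison -/

/-- The two forms agree on `D t`. -/
theorem resForm_eq_coeffForm_D_tInf :
    resForm N (D Kbar (FF N) (tInf N)) = coeffForm N (D Kbar (FF N) (tInf N)) := by
  apply LinearMap.ext
  intro a
  set v := inftyPlace N with hv
  have hres := hres_of_isGen (HasCanDivInst.isGen N) v
  have hmem : a ∈ ringSub v ⊔ polar (K := Kbar) (tInf N) (-(v.ord a)).toNat := by
    apply mem_sup_polar v hres (ord_tInf N)
    right
    have := Int.self_le_toNat (-(v.ord a))
    omega
  obtain ⟨b, hb, p, hp, rfl⟩ := Submodule.mem_sup.mp hmem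
  rw [map_add, map_add]
  congr 1
  · obtain ⟨h1, h2⟩ := forms_regular N (a := b) hb
    rw [h1, h2]
  · have hEq : Set.EqOn (resForm N (D Kbar (FF N) (tInf N)))
        (coeffForm N (D Kbar (FF N) (tInf N)))
        (Set.range fun i : Fin (-(v.ord (b + p))).toNat => (tInf N) ^ (-((i : ℕ) + 1 : ℤ))) := by
      rintro _ ⟨i, rfl⟩
      beta_reduce
      rcases Nat.eq_zero_or_pos (i : ℕ) with hi | hi
      · rw [hi]
        have h1 : (tInf N) ^ (-(((0 : ℕ) : ℤ) + 1)) = (tInf N)⁻¹ := by
          simp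
        rw [h1]
        obtain ⟨h2, h3⟩ := forms_simple N
        rw [h2, h3]
      · obtain ⟨k, hk⟩ : ∃ k : ℕ, (i : ℕ) = k + 1 := ⟨(i : ℕ) - 1, by omega⟩
        rw [hk]
        obtain ⟨h2, h3⟩ := forms_higher N k
        rw [h2, h3]
    exact LinearMap.eqOn_span hEq hp

/-- **The residue at `∞` is the constant coefficient of the `q`-expansion.** -/
theorem residue_infty_eq_coeff (ω : Ω[FF N⁄Kbar]) :
    residue (HasCanDivInst.isGen N) (inftyPlace N) ω = (qExpDiff N ω).coeff 0 := by
  have hω : ω ∈ Submodule.span (FF N) {D Kbar (FF N) (tInf N)} := by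
    rw [span_D_tInf]; exact Submodule.mem_top
  obtain ⟨a, rfl⟩ := Submodule.mem_span_singleton.mp hω
  have := congrArg (fun L => L a) (resForm_eq_coeffForm_D_tInf N)
  simpa [resForm_apply, coeffForm_apply] using this

/-- `res_∞ (f • D g) = (f * θ g)_0`. -/
theorem residue_infty_smul_D (f g : FF N) :
    residue (HasCanDivInst.isGen N) (inftyPlace N) (f • D Kbar (FF N) g) =
      ((f : LaurentSeries Kbar) * theta (g : LaurentSeries Kbar)).coeff 0 := by
  rw [residue_infty_eq_coeff, qExpDiff_smul_D]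

/-- `res_∞ (f • du/u) = (f * dlog u)_0`. -/
theorem residue_infty_smul_dlogΩ (f u : FF N) :
    residue (HasCanDivInst.isGen N) (inftyPlace N) (f • dlogΩ (K := Kbar) u) =
      ((f : LaurentSeries Kbar) * dlog (u : LaurentSeries Kbar)).coeff 0 := by
  rw [residue_infty_eq_coeff, map_smul, qExpDiff_dlogΩ, IntermediateField.smul_def, smul_eq_mul]

/-! ### The two sum formulas (consumer-facing) -/

/-- `0 ≤ ord_z (f • ω)` for `f`, `ω` regular at `z`. -/
theorem ordDifferential_smul_nonneg (z : Place Kbar (FF N)) {f : FF N} {ω : Ω[FF N⁄Kbar]}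
    (hf : f ∈ z.toValuationSubring) (hω : 0 ≤ z.ordDifferential ω) :
    0 ≤ z.ordDifferential (f • ω) := by
  have := dCoordGenerates (HasCanDivInst.isGen N) z
  have := nontrivial_kaehler (HasCanDivInst.isGen N)
  have hzero : z.ordDifferential (0 : Ω[FF N⁄Kbar]) = 0 := by
    rw [Place.ordDifferential, Place.differentialCoeff_zero, Place.ord_zero]
  rcases eq_or_ne f 0 with rfl | hf0
  · rw [zero_smul, hzero]
  rcases eq_or_ne ω 0 with rfl | hω0
  · rw [smul_zero, hzero]
  rw [ordDifferential_smul' (HasCanDivInst.isGen N) z hf0 hω0]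
  have := ffp_ord_nonneg_of_mem z hf
  omega

/-- **(P-A) of report 993.** If `f` is regular at every place `≠ ∞` and `ω` is regular at every
place `≠ ∞`, then the constant coefficient of `f * (q-expansion of ω)` vanishes. -/
theorem coeff_zero_mul_qExpDiff_eq_zero {f : FF N} {ω : Ω[FF N⁄Kbar]}
    (hf : ∀ z : Place Kbar (FF N), z ≠ inftyPlace N → f ∈ z.toValuationSubring)
    (hω : ∀ z : Place Kbar (FF N), z ≠ inftyPlace N → 0 ≤ z.ordDifferential ω) :
    ((f : LaurentSeries Kbar) * qExpDiff N ω).coeff 0 = 0 := by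
  have h := residue_eq_zero_of_regular_off (HasCanDivInst.isGen N) (inftyPlace N) (f • ω)
    (fun z hz => ordDifferential_smul_nonneg N z (hf z hz) (hω z hz))
  rw [residue_infty_eq_coeff, map_smul, IntermediateField.smul_def, smul_eq_mul] at h
  exact h

/-- The same for `ω = h • D g`: the constant coefficient of `f * h * θ g` vanishes. -/
theorem coeff_zero_mul_mul_theta_eq_zero {f h g : FF N}
    (hf : ∀ z : Place Kbar (FF N), z ≠ inftyPlace N → f ∈ z.toValuationSubring)
    (hω : ∀ z : Place Kbar (FF N), z ≠ inftyPlace N →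
      0 ≤ z.ordDifferential (h • D Kbar (FF N) g)) :
    ((f : LaurentSeries Kbar) * ((h : LaurentSeries Kbar) * theta (g : LaurentSeries Kbar))).coeff 0
      = 0 := by
  have := coeff_zero_mul_qExpDiff_eq_zero N hf hω
  rwa [qExpDiff_smul_D] at this

open Classical in
/-- **(P-B) of report 993.** If `f` is regular at every place `≠ ∞` and `u ≠ 0`, then
`(f * dlog u)_0 = - ∑_{z ≠ ∞} ord_z(u) f(z)`. -/
theorem coeff_zero_mul_dlog_eq_neg_finsum {f u : FF N}
    (hf : ∀ z : Place Kbar (FF N), z ≠ inftyPlace N → f ∈ z.toValuationSubring) (hu : u ≠ 0) :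
    ((f : LaurentSeries Kbar) * dlog (u : LaurentSeries Kbar)).coeff 0 =
      - ∑ᶠ z : Place Kbar (FF N), (if h : z = inftyPlace N then (0 : Kbar)
          else (z.ord u : Kbar) *
            Fermat.Agent.ES.RED.PlaceValue13.valueHom (HasCanDivInst.isGen N) z ⟨f, hf z h⟩) := by
  rw [← residue_infty_smul_dlogΩ]
  exact residue_smul_dlogΩ_eq_neg_finsum (HasCanDivInst.isGen N) (inftyPlace N) hf hu

end Fermat.Agent.T1B.HRes63
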